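import Fermat.Statements.S09
import Fermat.Agent.S10
import Fermat.Agent.S11
import Fermat.Agent.S13

/-!
# S09 glue (helper182)

`S09` (Mazur: the mod-`p` representation of the Frey curve is irreducible) from the landed
`S10`, `S11`, `S13` and the statement of `S12` as the only hypothesis.
-/

set_option autoImplicit false
open WeierstrassCurve WeierstrassCurve.Affine WeierstrassCurve.Affine.Point
open FreyPackage

namespace Fermat.Agent.S09.H182

/-- A prime `p ≥ 5` below `17` is one of `5, 7, 11, 13`. -/
theorem prime_cases_lt_seventeen {p : ℕ} (hp : p.Prime) (h5 : 5 ≤ p) (h17 : p < 17) :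
    p = 5 ∨ p = 7 ∨ p = 11 ∨ p = 13 := by
  interval_cases p <;> first | omega | (exfalso; revert hp; decide)

/-- `S09` from the statement of `S12` (everything else is on main). -/
theorem result_of_S12
    (h12 : ∀ P : FreyPackage, 17 ≤ P.p →
      ¬ HasGaloisStableCofixedLine (K := AlgebraicClosure ℚ) ℚ P.freyCurve P.p)
    (P : FreyPackage) :
    GaloisRepIsIrreducible (K := AlgebraicClosure ℚ) ℚ P.freyCurve P.p := by
  by_contra hred
  have hline := Fermat.Agent.S13.result P hred
  by_cases h17 : 17 ≤ P.p
  · exact h12 P h17 hline
  · rcases prime_cases_lt_seventeen P.pp P.hp5 (Nat.lt_of_not_le h17) with h | h | h | h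
    · exact Fermat.Agent.S10.result P (Or.inl h) hline
    · exact Fermat.Agent.S10.result P (Or.inr (Or.inl h)) hline
    · exact Fermat.Agent.S11.result P h hline
    · exact Fermat.Agent.S10.result P (Or.inr (Or.inr h)) hline

end Fermat.Agent.S09.H182
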